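import Fermat.Agent.S43.GMA.TraceAlg
import Fermat.Agent.S56.C.Defs
import Fermat.Agent.S19.Defs
import Fermat.Agent.S32.Defs

/-!
# S43 / BRIDGE / In : the input structure `BrIn` of BRIDGE

`BrIn` = what GEO (+ BASIC, TOWER, GA-K, base change to `k`) has to deliver for ONE Taylor–Wiles set: a finite dimensional
`k`-vector space `V ≠ 0` with a `k`-linear action `rV` of `G = G_ℚ`; EVERYTHING is stated with operators on `V`
(no ring `A`, no matrices, no `L`).  `Bridge/Main.lean` : `algOut_of_brIn : BrIn → Nonempty AlgOut`.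
-/

set_option autoImplicit false

noncomputable section

namespace Fermat.Agent.S43.Bridge

open Fermat.Agent.S53 (G M2)
open Fermat.Agent.S56.C (rm)
open Fermat.Agent.S19 (IsFunFlat)
open Fermat.Agent.S32 (combAct)

/-- **Input of BRIDGE.**  `r` = residual representation, `S'` = primes where ramification is allowed, `bad j` = the scalar primes,
`n₀` Taylor–Wiles primes, `P0` = lower bound for the `p`-parts of `s_i - 1`, `d` = control constant. -/
structure BrIn (p : ℕ) {k : Type} [Field k] (r : G →* GL (Fin 2) k) (S' : Finset ℕ)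
    {t : ℕ} (bad : Fin t → ℕ) (n₀ P0 d : ℕ) : Type 1 where
  V : Type
  [gV : AddCommGroup V]
  [kV : Module k V]
  [fV : FiniteDimensional k V]
  [nV : Nontrivial V]
  /-- the Galois action -/
  rV : G →* Module.End k V
  /-- the mod `p` cyclotomic character -/
  χ : G →* kˣ
  /-- (BASIC) `g + χ(g) g⁻¹` commutes with `G` (Eichler–Shimura + Chebotarev) -/
  hcent : GMA.Central rV χ
  /-- (BASIC) `g + χ(g) g⁻¹ - tr r(g)` is nilpotent (generalised eigenspace) -/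
  hnilp : GMA.NilAt rV χ (fun g => (rm r g).trace)
  hdet : ∀ g, (rm r g).det = (χ g : k)
  /-- complex conjugation -/
  cc : G
  hcc : cc * cc = 1
  hχc : χ cc = -1
  hsm : ∃ L : IntermediateField ℚ (AlgebraicClosure ℚ), FiniteDimensional ℚ L ∧
    ∀ σ : G, (∀ x ∈ L, σ x = x) → rV σ = 1
  hunr : ∀ q : ℕ, q.Prime → q ∉ S' → ∀ P : ValuationSubring (AlgebraicClosure ℚ),
    P.LiesOverPrime q → ∀ σ ∈ P.inertiaSubgroupIn ℚ, rV σ = 1
  /-- (FLAT) a finite flat `G`-module whose `ℤ[G]`-annihilator kills `V` -/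
  X : Type
  [gX : AddCommGroup X]
  [fX : Finite X]
  [aX : DistribMulAction G X]
  hX : IsFunFlat p X
  hann : ∀ a : G →₀ ℤ, (∀ x : X, combAct a x = 0) → ∀ v : V, (a.sum fun g n => n • rV g v) = 0
  /-- tame generators at the bad primes -/
  sg : Fin t → G
  hsg_unip : ∀ j v, rV (sg j) (rV (sg j) v) - rV (sg j) v - rV (sg j) v + v = 0
  hsg_chi : ∀ j, χ (sg j) = 1
  hsg_res : ∀ j, r (sg j) = 1
  hsg_gen : ∀ j, ∀ P : ValuationSubring (AlgebraicClosure ℚ), P.LiesOverPrime (bad j) →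
    ∀ τ ∈ P.inertiaSubgroupIn ℚ, ∃ (γ : G) (n : ℕ), rV τ = rV (γ * sg j ^ n * γ⁻¹)
  /-- (GA-K), kernel form -/
  hGA : ∀ j, ∀ P : ValuationSubring (AlgebraicClosure ℚ), P.LiesOverPrime (bad j) →
    ∀ g ∈ P.decompositionSubgroup ℚ, ∃ e : k, ∀ v : V,
      (∀ τ ∈ P.inertiaSubgroupIn ℚ, rV τ v = v) → rV g v = e • v
  /-- tame generators and Frobenius elements at the Taylor–Wiles primes `s i = p ^ e i * u i + 1` -/
  sT : Fin n₀ → G
  fT : Fin n₀ → G
  s : Fin n₀ → ℕ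
  e : Fin n₀ → ℕ
  u : Fin n₀ → ℕ
  hs : ∀ i, s i = p ^ e i * u i + 1
  he : ∀ i, 0 < e i
  hu : ∀ i, ¬ p ∣ u i
  hP0 : ∀ i, P0 ≤ p ^ e i
  hrel : ∀ i, rV (fT i * sT i) = rV (sT i ^ s i * fT i)
  hsT_chi : ∀ i, χ (sT i) = 1
  hsT_res : ∀ i, r (sT i) = 1
  heig : ∀ i, ∃ a0 b0 : k, a0 ≠ b0 ∧ (rm r (fT i)).trace = a0 + b0 ∧ (rm r (fT i)).det = a0 * b0
  /-- (SIZE) -/
  hsize : ∃ v : V, (List.ofFn fun i => ∑ j ∈ Finset.range (p ^ e i), rV (sT i) ^ j).prod v ≠ 0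
  /-- (CONTROL) -/
  hctrl : ∀ U : Submodule k V, (∀ v ∈ U, ∀ i, rV (sT i) v = v) → Module.finrank k U ≤ d

attribute [instance] BrIn.gV BrIn.kV BrIn.fV BrIn.nV BrIn.gX BrIn.fX BrIn.aX

end Fermat.Agent.S43.Bridge
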