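import Fermat.Agent.S43.LocA.TwMat
import Fermat.Agent.S43.LocA.QAlg

/-!
# S43 / BRIDGE / Core : translation between operators on `V ≃ L²` and matrices over `A`

`Φ : V ≃ₗ[A] L²`, `rV : G →* End_k V`, `ρ : G →* M₂(A)`, `Φ (rV g w) = matAct (ρ g) (Φ w)`.
* `Corr T X` : the operator `T` on `V` corresponds to the matrix `X`;
* `ker_form`  : (GA-K) on `V` ⟹ kernel form on `L`;
* `size_form` : `∏ Nm(σ_i) V ≠ 0` ⟹ `∏ y_i^(Q_i - 1) L ≠ 0`;
* `ctrl_form` : `dim V^{σ_i} ≤ d` ⟹ `dim L[y] ≤ d`.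
-/

set_option autoImplicit false
set_option linter.unusedSectionVars false

namespace Fermat.Agent.S43.Bridge

open Fermat.Agent.S43.Exact Fermat.Agent.S43.LocA

variable {k : Type*} [Field k] {A : Type*} [CommRing A] [Algebra k A]
variable {V : Type*} [AddCommGroup V] [Module k V] [Module A V] [IsScalarTower k A V]
variable {L : Type*} [AddCommGroup L] [Module k L] [Module A L] [IsScalarTower k A L]
variable (Φ : V ≃ₗ[A] (Fin 2 → L))

/-- the operator `T` corresponds to the matrix `X`. -/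
def Corr (T : Module.End k V) (X : Matrix (Fin 2) (Fin 2) A) : Prop :=
  ∀ w, Φ (T w) = matAct X (Φ w)

variable {Φ}

theorem Corr.one : Corr Φ (1 : Module.End k V) 1 := fun w => by rw [matAct_one]; rfl

theorem Corr.zero : Corr Φ (0 : Module.End k V) 0 := fun w => by rw [matAct_zero]; simp

theorem Corr.mul {T T' : Module.End k V} {X X' : Matrix (Fin 2) (Fin 2) A} (h : Corr Φ T X)
    (h' : Corr Φ T' X') : Corr Φ (T * T') (X * X') := fun w => by
  rw [Module.End.mul_apply, h, h', matAct_mul]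

theorem Corr.add {T T' : Module.End k V} {X X' : Matrix (Fin 2) (Fin 2) A} (h : Corr Φ T X)
    (h' : Corr Φ T' X') : Corr Φ (T + T') (X + X') := fun w => by
  rw [LinearMap.add_apply, map_add, h, h', matAct_add]

theorem Corr.pow {T : Module.End k V} {X : Matrix (Fin 2) (Fin 2) A} (h : Corr Φ T X) (n : ℕ) :
    Corr Φ (T ^ n) (X ^ n) := by
  induction n with
  | zero => simpa using Corr.one
  | succ n ih => rw [pow_succ, pow_succ]; exact ih.mul h

theorem Corr.sum {ι : Type*} (s : Finset ι) {T : ι → Module.End k V}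
    {X : ι → Matrix (Fin 2) (Fin 2) A} (h : ∀ i, Corr Φ (T i) (X i)) :
    Corr Φ (∑ i ∈ s, T i) (∑ i ∈ s, X i) := by
  classical
  induction s using Finset.induction_on with
  | empty => simpa using Corr.zero
  | insert a s ha ih => rw [Finset.sum_insert ha, Finset.sum_insert ha]; exact (h a).add ih

theorem Corr.list_prod : ∀ (l : List (Module.End k V × Matrix (Fin 2) (Fin 2) A)),
    (∀ x ∈ l, Corr Φ x.1 x.2) → Corr Φ (l.map Prod.fst).prod (l.map Prod.snd).prod
  | [], _ => by simpa using Corr.one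
  | x :: l, h => by
    rw [List.map_cons, List.map_cons, List.prod_cons, List.prod_cons]
    exact (h x (by simp)).mul (Corr.list_prod l fun y hy => h y (by simp [hy]))

/-- fixed vectors. -/
theorem Corr.fix_iff {T : Module.End k V} {X : Matrix (Fin 2) (Fin 2) A} (h : Corr Φ T X) (w : V) :
    T w = w ↔ matAct X (Φ w) = Φ w := by
  rw [← h w]
  exact ⟨fun e => by rw [e], fun e => Φ.injective e⟩

variable {G : Type*} [Group G]

/-- **(GA-K) ⟹ kernel form on `L`.** -/
theorem ker_form (rV : G →* Module.End k V) (ρ : G →* Matrix (Fin 2) (Fin 2) A)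
    (hΦ : ∀ g, Corr Φ (rV g) (ρ g))
    (hρeq : ∀ g g', rV g = rV g' → ρ g = ρ g') (σ : G) (I : Set G)
    (h11 : (ρ σ - 1) 1 1 = -(ρ σ - 1) 0 0)
    (hgen : ∀ τ ∈ I, ∃ (γ : G) (n : ℕ), rV τ = rV (γ * σ ^ n * γ⁻¹))
    (g : G) (e : k) (hGA : ∀ v : V, (∀ τ ∈ I, rV τ v = v) → rV g v = e • v)
    (l : L) (ha : (ρ σ - 1) 0 0 • l = 0) (hb : (ρ σ - 1) 0 1 • l = 0)
    (hc : (ρ σ - 1) 1 0 • l = 0) :
    ρ g 0 1 • l = 0 ∧ ρ g 1 0 • l = 0 ∧ (ρ g 0 0 - ρ g 1 1) • l = 0 := by
  -- the submodule killed by the entries of `N`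
  let K : Submodule A L :=
    { carrier := {x | ∀ i j, (ρ σ - 1) i j • x = 0}
      add_mem' := by
        intro x y hx hy i j
        rw [smul_add, hx, hy, add_zero]
      zero_mem' := by
        intro i j
        rw [smul_zero]
      smul_mem' := by
        intro z x hx i j
        rw [smul_comm, hx, smul_zero] }
  have hlK : l ∈ K := by
    intro i j
    fin_cases i <;> fin_cases j
    · exact ha
    · exact hb
    · exact hc
    · change (ρ σ - 1) 1 1 • l = 0
      rw [h11, neg_smul, ha, neg_zero]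
  have hstab : ∀ (Y : Matrix (Fin 2) (Fin 2) A) (v : Fin 2 → L), (∀ i, v i ∈ K) →
      ∀ i, matAct Y v i ∈ K := by
    intro Y v hv i
    rw [matAct_apply]
    exact K.add_mem (K.smul_mem _ (hv 0)) (K.smul_mem _ (hv 1))
  have hfixσ : ∀ v : Fin 2 → L, (∀ i, v i ∈ K) → matAct (ρ σ) v = v := by
    intro v hv
    have : matAct (ρ σ - 1) v = 0 := by
      funext i
      rw [matAct_apply, hv 0 i 0, hv 1 i 1, add_zero]
      rfl
    rwa [matAct_sub, matAct_one, sub_eq_zero] at this
  have hfixI : ∀ v : Fin 2 → L, (∀ i, v i ∈ K) → ∀ τ ∈ I, matAct (ρ τ) v = v := by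
    intro v hv τ hτ
    obtain ⟨γ, n, hγ⟩ := hgen τ hτ
    rw [hρeq _ _ hγ, map_mul, map_mul, map_pow, matAct_mul, matAct_mul,
      fix_pow (hfixσ _ (hstab _ v hv)) n, ← matAct_mul, ← map_mul, mul_inv_cancel, map_one,
      matAct_one]
  have key : ∀ v : Fin 2 → L, (∀ i, v i ∈ K) → matAct (ρ g) v = e • v := by
    intro v hv
    have h1 := hGA (Φ.symm v) (fun τ hτ => by
      rw [(hΦ τ).fix_iff, LinearEquiv.apply_symm_apply]
      exact hfixI v hv τ hτ)
    have h2 := hΦ g (Φ.symm v)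
    rw [h1, LinearEquiv.apply_symm_apply, ← algebraMap_smul A e (Φ.symm v), map_smul,
      LinearEquiv.apply_symm_apply, algebraMap_smul] at h2
    exact h2.symm
  have k0 := key ![l, 0] (by
    intro i
    fin_cases i
    · exact hlK
    · exact K.zero_mem)
  have k1 := key ![0, l] (by
    intro i
    fin_cases i
    · exact K.zero_mem
    · exact hlK)
  have k00 := congrFun k0 0
  have k01 := congrFun k0 1
  have k10 := congrFun k1 0
  have k11 := congrFun k1 1
  rw [matAct_apply] at k00 k01 k10 k11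
  simp only [Matrix.cons_val_zero, Matrix.cons_val_one, Matrix.cons_val_fin_one, smul_zero, add_zero,
    zero_add, Pi.smul_apply] at k00 k01 k10 k11
  refine ⟨k10, k01, ?_⟩
  rw [sub_smul, k00, k11, sub_self]

/-- **(SIZE).** -/
theorem size_form (rV : G →* Module.End k V) (ρ : G →* Matrix (Fin 2) (Fin 2) A)
    (hΦ : ∀ g, Corr Φ (rV g) (ρ g)) {n₀ : ℕ} (sT : Fin n₀ → G) (y : Fin n₀ → A) (Q : Fin n₀ → ℕ)
    (hSU : ∀ i, ScalUnit (∑ j ∈ Finset.range (Q i), ρ (sT i) ^ j) (y i ^ (Q i - 1)))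
    (hsize : ∃ v : V, (List.ofFn fun i => ∑ j ∈ Finset.range (Q i), rV (sT i) ^ j).prod v ≠ 0) :
    ∃ l : L, (∏ i, y i ^ (Q i - 1)) • l ≠ 0 := by
  obtain ⟨v, hv⟩ := hsize
  have hC := Corr.list_prod (Φ := Φ)
    (List.ofFn fun i => ((∑ j ∈ Finset.range (Q i), rV (sT i) ^ j : Module.End k V),
      (∑ j ∈ Finset.range (Q i), ρ (sT i) ^ j : Matrix (Fin 2) (Fin 2) A)))
    (by
      intro x hx
      obtain ⟨i, rfl⟩ := (List.mem_ofFn' _ _).1 hx
      exact Corr.sum _ fun j => (hΦ _).pow j)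
  have hS := ScalUnit.list_prod
    (List.ofFn fun i => ((∑ j ∈ Finset.range (Q i), ρ (sT i) ^ j : Matrix (Fin 2) (Fin 2) A),
      y i ^ (Q i - 1)))
    (by
      intro x hx
      obtain ⟨i, rfl⟩ := (List.mem_ofFn' _ _).1 hx
      exact hSU i)
  simp only [List.map_ofFn, Function.comp_def] at hC hS
  rw [List.prod_ofFn (f := fun i => y i ^ (Q i - 1))] at hS
  rw [← hS.exists_ne_zero_iff (L := L)]
  refine ⟨Φ v, ?_⟩
  rw [← hC v]
  intro h0
  exact hv (Φ.injective (by rw [h0, map_zero]))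

/-- **(CONTROL).** -/
theorem ctrl_form (rV : G →* Module.End k V) (ρ : G →* Matrix (Fin 2) (Fin 2) A)
    (hΦ : ∀ g, Corr Φ (rV g) (ρ g)) {n₀ : ℕ} (sT : Fin n₀ → G) (y : Fin n₀ → A)
    (hY : ∀ i, IsTwY (ρ (sT i)) (y i)) (d : ℕ)
    (hctrl : ∀ U : Submodule k V, (∀ v ∈ U, ∀ i, rV (sT i) v = v) → Module.finrank k U ≤ d)
    (U : Submodule k L) (hU : ∀ l ∈ U, ∀ i, y i • l = 0) : Module.finrank k U ≤ d := by
  let f : L →ₗ[k] V :=
    { toFun := fun l => Φ.symm ![l, 0]
      map_add' := by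
        intro a b
        rw [← map_add]
        congr 1
        funext i
        fin_cases i <;> simp
      map_smul' := by
        intro c a
        rw [RingHom.id_apply, ← algebraMap_smul A c (Φ.symm ![a, 0]), ← map_smul]
        congr 1
        funext i
        fin_cases i <;> simp }
  have hf : Function.Injective f := by
    intro a b hab
    have := Φ.symm.injective hab
    exact congrFun this 0
  have h1 := hctrl (U.map f) (by
    rintro _ ⟨l, hl, rfl⟩ i
    rw [(hΦ _).fix_iff]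
    change matAct _ (Φ (Φ.symm ![l, 0])) = Φ (Φ.symm ![l, 0])
    rw [LinearEquiv.apply_symm_apply]
    refine ((hY i).fix_iff (L := L) _).2 ?_
    funext a
    fin_cases a
    · exact hU l hl i
    · exact smul_zero _)
  rwa [← (Submodule.equivMapOfInjective f hf U).finrank_eq] at h1

end Fermat.Agent.S43.Bridge
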