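import Fermat.Agent.S43.Core.Mid
import Fermat.Agent.S43.Bridge.Core
import Fermat.Agent.S43.Bridge.In
import Fermat.Agent.S43.GMA.Res
import Fermat.Agent.S43.GMA.TraceAlg
import Fermat.Agent.S43.Selp.Main
import Fermat.Agent.S43.FlatB.Loc

/-!
# S43 / BRIDGE / Main : from a Hecke–Galois module `V` (over `k`) to `Core.AlgOut`

`BrIn` = what GEO (+ BASIC, TOWER, GA-K, base change to `k`) has to deliver for ONE Taylor–Wiles set: a finite dimensional
`k`-vector space `V ≠ 0` with a `k`-linear action `rV` of `G = G_ℚ`; EVERYTHING is stated with operators on `V`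
(no ring `A`, no matrices, no `L`).  `algOut_of_brIn : BrIn → Nonempty AlgOut`.
-/

set_option autoImplicit false

open Matrix

noncomputable section

namespace Fermat.Agent.S43.Bridge

open Fermat.Agent.S53 (G M2)
open Fermat.Agent.S56
open Fermat.Agent.S56.C (rm liftMat)
open Fermat.Agent.S19 (IsFunFlat)
open Fermat.Agent.S32 (combAct)
open Fermat.Agent.S43.Exact Fermat.Agent.S43.LocA Fermat.Agent.S43.Core

/-- **BRIDGE.** -/
theorem algOut_of_brIn {k : Type} [Field k] [Finite k] (h2 : (2 : k) ≠ 0) (p : ℕ) [Fact p.Prime]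
    [CharP k p] (r : G →* GL (Fin 2) k) (hr : B.RSmooth r)
    (hirr : ∀ U : Submodule k (Fin 2 → k), (∀ g, ∀ u ∈ U, (r g).1 *ᵥ u ∈ U) → U = ⊥ ∨ U = ⊤)
    (S' : Finset ℕ) {t : ℕ} (bad : Fin t → ℕ) (n₀ P0 d : ℕ) (I : BrIn p r S' bad n₀ P0 d) :
    Nonempty (AlgOut p r S' bad n₀ P0 d) := by
  classical
  have H := I.hcent
  have N2 := I.hnilp
  haveI : IsLocalRing (GMA.TrAlg I.hcent) := GMA.isLocalRing I.hcent I.hnilp
  haveI : CharP (GMA.TrAlg I.hcent) p :=
    charP_of_injective_algebraMap (algebraMap k (GMA.TrAlg I.hcent)).injective p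
  obtain ⟨ρ, L, Φ, hΦ, hmap, htrace, hdetρ, hfaith, hρeq⟩ :=
    GMA.Res.gma_res h2 (GMA.res I.hcent I.hnilp)
      (fun a ha => (GMA.isUnit_iff I.hcent I.hnilp a).2 ha) (GMA.TrAlg.faithful I.hcent)
      (GMA.rA I.hcent) (GMA.epsA I.hcent) I.cc (GMA.tA I.hcent) I.hcc
      (by
        apply Units.ext
        rw [GMA.coe_epsA, I.hχc]
        simp)
      (GMA.rA_add I.hcent) r
      (fun g => (GMA.res_tA I.hcent I.hnilp g).symm)
      (fun g => by
        rw [GMA.coe_epsA, AlgHom.commutes]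
        exact I.hdet g)
      hirr
  -- notation
  set π := GMA.res I.hcent I.hnilp with hπ
  let ρM : G →* M2 (GMA.TrAlg I.hcent) := (Units.coeHom _).comp ρ
  have hρM : ∀ g, ρM g = (ρ g).1 := fun g => rfl
  have hker𝔪 : IsLocalRing.maximalIdeal (GMA.TrAlg I.hcent) = RingHom.ker π :=
    GMA.maximalIdeal_eq_ker I.hcent I.hnilp
  have hC : ∀ g, Corr Φ (I.rV g) (ρM g) := fun g w => hΦ g w
  have hrA : ∀ g g', I.rV g = I.rV g' → GMA.rA I.hcent g = GMA.rA I.hcent g' := by
    intro g g' h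
    ext v
    rw [GMA.rA_apply, GMA.rA_apply, h]
  have hρeqA : ∀ g g', GMA.rA I.hcent g = GMA.rA I.hcent g' → ρM g = ρM g' := by
    intro g g' h
    rw [hρM, hρM, hρeq g g' h]
  have hρeq' : ∀ g g', I.rV g = I.rV g' → ρM g = ρM g' := fun g g' h => hρeqA g g' (hrA g g' h)
  have hone : ∀ g, I.rV g = 1 → GMA.rA I.hcent g = 1 := by
    intro g h
    rw [← map_one (GMA.rA I.hcent)]
    exact hrA g 1 (by rw [h, map_one])
  have hdet1 : ∀ g, I.χ g = 1 → (ρM g).det = 1 := by
    intro g h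
    rw [hρM, hdetρ, GMA.coe_epsA, h]
    simp
  have hentry : ∀ g i j, π (ρM g i j) = rm r g i j := by
    intro g i j
    have := congrFun (congrFun (hmap g) i) j
    exact this
  have hnilA : ∀ x ∈ IsLocalRing.maximalIdeal (GMA.TrAlg I.hcent), IsNilpotent x := by
    intro x hx
    rw [hker𝔪, RingHom.mem_ker] at hx
    exact (GMA.res_eq_zero_iff I.hcent I.hnilp x).1 hx
  have hres_eq : ∀ x y : GMA.TrAlg I.hcent, π x = π y →
      IsLocalRing.residue (GMA.TrAlg I.hcent) x = IsLocalRing.residue (GMA.TrAlg I.hcent) y := by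
    intro x y h
    rw [← sub_eq_zero, ← map_sub, IsLocalRing.residue_eq_zero_iff, hker𝔪, RingHom.mem_ker, map_sub,
      h, sub_self]
  -- bad primes
  have hQ := fun j => LocA.QAlg.locq_abs (GMA.rA I.hcent) ρM Φ hΦ hfaith (I.sg j) (I.hsg_unip j)
    (hdet1 _ (I.hsg_chi j))
  -- Taylor-Wiles primes
  have hTW : ∀ i, ∃ y ∈ IsLocalRing.maximalIdeal (GMA.TrAlg I.hcent),
      IsTwY (ρM (I.sT i)) y ∧ y ^ (p ^ I.e i) = 0 := by
    intro i
    obtain ⟨a0, b0, hab, ht, hd⟩ := I.heig i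
    have hχ0 : (I.χ (I.fT i) : k) ≠ 0 := (I.χ (I.fT i)).ne_zero
    have hab0 : a0 * b0 ≠ 0 := by rw [← hd, I.hdet]; exact hχ0
    refine tw_y' p hnilA (ρM (I.fT i)) (ρM (I.sT i)) (algebraMap k _ a0) (algebraMap k _ b0)
      ((isUnit_iff_ne_zero.2 (left_ne_zero_of_mul hab0)).map _)
      ((isUnit_iff_ne_zero.2 (right_ne_zero_of_mul hab0)).map _)
      (by
        rw [← map_sub]
        exact (isUnit_iff_ne_zero.2 (sub_ne_zero.2 hab)).map _)
      (by
        rw [hker𝔪, RingHom.mem_ker, map_sub, map_add, AlgHom.commutes, AlgHom.commutes, hρM, htrace,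
          hπ, GMA.res_tA, ht]
        simp)
      (by
        rw [hρM, hdetρ, GMA.coe_epsA, ← map_mul, ← hd, I.hdet, sub_self]
        exact Ideal.zero_mem _)
      (by
        ext a b
        rw [RingHom.mapMatrix_apply, Matrix.map_apply]
        have h1 : π (ρM (I.sT i) a b) = π ((1 : M2 (GMA.TrAlg I.hcent)) a b) := by
          rw [hentry, rm, I.hsT_res i]
          by_cases hab' : a = b
          · subst hab'; simp
          · simp [Matrix.one_apply_ne hab']
        rw [hres_eq _ _ h1]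
        by_cases hab' : a = b
        · subst hab'; simp
        · simp [Matrix.one_apply_ne hab'])
      (hdet1 _ (I.hsT_chi i)) (I.s i) (I.e i) (I.u i) (I.hs i) (I.he i) (I.hu i)
      (by
        have := hρeq' _ _ (I.hrel i)
        rwa [map_mul, map_mul, map_pow] at this)
  choose y hy𝔪 hY hyP using hTW
  have hSU : ∀ i, ScalUnit (∑ j ∈ Finset.range (p ^ I.e i), ρM (I.sT i) ^ j)
      (y i ^ (p ^ I.e i - 1)) := by
    intro i
    letI := ZMod.algebra (GMA.TrAlg I.hcent) p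
    rw [geom_sum_eq_sub_one_pow p (ρM (I.sT i)) (I.e i)]
    exact (hY i).scalUnit.pow _
  haveI : FiniteDimensional k L :=
    Module.Finite.of_injective (L.subtype.restrictScalars k) Subtype.val_injective
  refine ⟨{
    A := GMA.TrAlg I.hcent
    π := π
    hnil := ?_
    R := fun g => ρM g
    hR := hmap
    htr := ?_
    hprop := ?_
    L := L
    a := fun j => (ρM (I.sg j) - 1) 0 0
    b := fun j => (ρM (I.sg j) - 1) 0 1
    c := fun j => (ρM (I.sg j) - 1) 1 0
    hb := ?_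
    hc := ?_
    hrel := ?_
    hker := ?_
    y := y
    hy := fun i => hker𝔪 ▸ hy𝔪 i
    Q := fun i => p ^ I.e i
    hQ := I.hP0
    hyQ := fun i l => by rw [hyP, zero_smul]
    hA := size_form I.rV ρM hC I.sT y (fun i => p ^ I.e i) hSU I.hsize
    hB := fun U hU => ctrl_form I.rV ρM hC I.sT y hY d I.hctrl U hU }⟩
  · obtain ⟨N, hN⟩ := GMA.isNilpotent_maximalIdeal I.hcent I.hnilp
    exact ⟨N, by rw [← hker𝔪, hN, Ideal.zero_eq_bot]⟩
  · have : (fun σ => (ρM σ).trace) = GMA.tA I.hcent := funext htrace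
    rw [this]
    exact GMA.adjoin_tA I.hcent
  · obtain ⟨F, hF, hF'⟩ := I.hsm
    refine Selp.hprop_of_gma' p r (GMA.rA I.hcent) ρM hρeqA (GMA.epsA I.hcent) hdetρ
      (fun g => ⟨I.χ g, rfl⟩) S' ⟨F, hF, fun σ hσ => hone σ (hF' σ hσ)⟩
      (fun q hq hqS P hP σ hσ => hone σ (I.hunr q hq hqS P hP σ hσ)) ?_
    intro φ c _ hc
    refine FlatB.flatAt_of_map (φ := (φ : GMA.TrAlg I.hcent →+* DualNumber k)) p
      (fun g h => map_mul ρM g h) hc
      ⟨F, hF, fun σ hσ => by
        rw [← map_one ρM]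
        exact hρeq' σ 1 (by rw [hF' σ hσ, map_one])⟩
      hr hfaith I.hX ?_
    intro a ha v
    obtain ⟨w, rfl⟩ := Φ.surjective v
    have h1 := I.hann a ha w
    have h2' := congrArg Φ h1
    rw [map_zero, Finsupp.sum, map_sum] at h2'
    rw [Finsupp.sum, ← h2']
    refine Finset.sum_congr rfl fun g _ => ?_
    rw [map_zsmul]
    congr 1
    exact (hC g w).symm
  · intro j
    rw [RingHom.mem_ker, Matrix.sub_apply, map_sub, hentry, rm, I.hsg_res j]
    simp
  · intro j
    rw [RingHom.mem_ker, Matrix.sub_apply, map_sub, hentry, rm, I.hsg_res j]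
    simp
  · intro j l
    rw [(hQ j).2.1, zero_smul]
  · intro j P hP σ hσ l ha hb hc
    obtain ⟨e, he⟩ := I.hGA j P hP σ hσ
    exact ker_form I.rV ρM hC hρeq' (I.sg j) {τ | τ ∈ P.inertiaSubgroupIn ℚ} (hQ j).1
      (fun τ hτ => I.hsg_gen j P hP τ hτ) σ e he l ha hb hc

end Fermat.Agent.S43.Bridge
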